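import Fermat.Agent.LT.T2.H878.CommConvMean
import Fermat.Agent.LT.T2.H197.S2RotLeaf
import Fermat.Agent.LT.T2.H555.CartanInfAdapter

/-!
# Row LT, tower T2, sub-leaf T2.07.21 `SubCommConvMean429` (helper878): CLOSED form

`subCommConvMean_closed878 : SubCommConvMean429 K`, unconditional: `subCommConvMean878` applied
to T2.07.31 `subS2Rot197` (helper197) and T2.07.32 `subCartanInf555` (helper555); byte-identical
copies of their files.
-/

set_option autoImplicit false

open NumberField

namespace Fermat.Agent.LT.T2.H878

/-- **T2.07.21, closed.** -/
theorem subCommConvMean_closed878 (K : Type) [Field K] [NumberField K] :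
    H429.SubCommConvMean429 K :=
  subCommConvMean878 H197.subS2Rot197 H555.subCartanInf555

end Fermat.Agent.LT.T2.H878
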