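import Mathlib

/-!
# Row LT, tower T2, sub-leaf T2.07.21 (helper878), part 2: the abstract commutation argument

OFF-MAIN.  Mathlib only.

`G` is a second countable Hausdorff topological group with a measure `μ` which is finite on
compact sets, left and right invariant; `P` is a parameter space with a measure `ν₀` finite on
compact sets, `B' ⊆ B` with `B` compact; `Y, Z : P → G` are continuous families.

`comm_abstract878`: the convolution `R(f) φ (x) = ∫ φ(x h) f(h) dμ(h)` commutes with the mean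
`M φ (x) = ∫_{B'} φ(x Y_p) wt(p) dν₀(p)` as soon as
* `E1`: `∫ φ(x h Y_p) f(h) dμ(h) = ∫ φ(x h) f(h Z_p) dμ(h)` for every `p`;
* `E2` (equality of the kernels): `∫_{B'} f(Y_p⁻¹ h) wt(p) dν₀ = ∫_{B'} f(h Z_p) wt(p) dν₀`.
-/

set_option autoImplicit false
set_option linter.unusedSectionVars false

open MeasureTheory Set
open scoped Pointwise

noncomputable section

namespace Fermat.Agent.LT.T2.H878

section abstract878

variable {G : Type*} [Group G] [TopologicalSpace G] [IsTopologicalGroup G] [T2Space G]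
  [SecondCountableTopology G] [MeasurableSpace G] [BorelSpace G]
  {P : Type*} [TopologicalSpace P] [T2Space P] [SecondCountableTopology P] [MeasurableSpace P]
  [BorelSpace P]
  (μ : Measure G) [IsFiniteMeasureOnCompacts μ] [SFinite μ]
  (ν₀ : Measure P) [IsFiniteMeasureOnCompacts ν₀] [SFinite ν₀]

/-- Integrability on the product of a continuous function which vanishes for `h` outside a
compact set. -/
theorem fubini_int878 {Φ : G → P → ℂ} (hΦ : Continuous (Function.uncurry Φ)) {C : Set G}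
    (hC : IsCompact C) {B' B : Set P} (hB' : MeasurableSet B') (hB : IsCompact B)
    (hBB : B' ⊆ B) (h0 : ∀ h, h ∉ C → ∀ p ∈ B, Φ h p = 0) :
    Integrable (Function.uncurry Φ) (μ.prod (ν₀.restrict B')) := by
  have e : μ.prod (ν₀.restrict B') = (μ.prod ν₀).restrict (univ ×ˢ B') := by
    rw [← Measure.prod_restrict, Measure.restrict_univ]
  rw [e]
  have h1 : IntegrableOn (Function.uncurry Φ) (C ×ˢ B) (μ.prod ν₀) :=
    hΦ.continuousOn.integrableOn_compact (hC.prod hB)
  refine h1.of_forall_sdiff_eq_zero (MeasurableSet.univ.prod hB') ?_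
  rintro ⟨h, p⟩ ⟨hp, hn⟩
  have hpB : p ∈ B := hBB hp.2
  have hh : h ∉ C := fun hh => hn ⟨hh, hpB⟩
  exact h0 h hh p hpB

/-- Fubini for a continuous function which vanishes for `h` outside a compact set. -/
theorem fubini878 {Φ : G → P → ℂ} (hΦ : Continuous (Function.uncurry Φ)) {C : Set G}
    (hC : IsCompact C) {B' B : Set P} (hB' : MeasurableSet B') (hB : IsCompact B)
    (hBB : B' ⊆ B) (h0 : ∀ h, h ∉ C → ∀ p ∈ B, Φ h p = 0) :
    ∫ h, ∫ p in B', Φ h p ∂ν₀ ∂μ = ∫ p in B', ∫ h, Φ h p ∂μ ∂ν₀ :=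
  integral_integral_swap (fubini_int878 μ ν₀ hΦ hC hB' hB hBB h0)

/-- **The abstract commutation argument.** -/
theorem comm_abstract878 [μ.IsMulLeftInvariant]
    {f φ : G → ℂ} (hf : Continuous f) (hfc : HasCompactSupport f) (hφ : Continuous φ)
    {Y Z : P → G} (hY : Continuous Y) (hZ : Continuous Z) {wt : P → ℂ} (hwt : Continuous wt)
    {B' B : Set P} (hB' : MeasurableSet B') (hB : IsCompact B) (hBB : B' ⊆ B)
    (E1 : ∀ p x, ∫ h, φ (x * h * Y p) * f h ∂μ = ∫ h, φ (x * h) * f (h * Z p) ∂μ)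
    (E2 : ∀ h, ∫ p in B', f ((Y p)⁻¹ * h) * wt p ∂ν₀ = ∫ p in B', f (h * Z p) * wt p ∂ν₀)
    (x : G) :
    ∫ h, (∫ p in B', φ (x * h * Y p) * wt p ∂ν₀) * f h ∂μ
      = ∫ p in B', (∫ h, φ (x * Y p * h) * f h ∂μ) * wt p ∂ν₀ := by
  -- Step A, B
  have hA : ∫ h, (∫ p in B', φ (x * h * Y p) * wt p ∂ν₀) * f h ∂μ
      = ∫ p in B', ∫ h, φ (x * h * Y p) * wt p * f h ∂μ ∂ν₀ := by
    rw [← fubini878 μ ν₀ (Φ := fun h p => φ (x * h * Y p) * wt p * f h) (C := tsupport f)
      ?_ hfc hB' hB hBB ?_]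
    · refine integral_congr_ae (Filter.Eventually.of_forall fun h => ?_)
      exact (integral_mul_const (f h) _).symm
    · show Continuous fun q : G × P => φ (x * q.1 * Y q.2) * wt q.2 * f q.1
      fun_prop
    · intro h hh p _
      rw [image_eq_zero_of_notMem_tsupport hh, mul_zero]
  -- Step C
  have hC : ∫ p in B', ∫ h, φ (x * h * Y p) * wt p * f h ∂μ ∂ν₀
      = ∫ p in B', ∫ h, φ (x * h) * f (h * Z p) * wt p ∂μ ∂ν₀ := by
    refine integral_congr_ae (Filter.Eventually.of_forall fun p => ?_)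
    show ∫ h, φ (x * h * Y p) * wt p * f h ∂μ = ∫ h, φ (x * h) * f (h * Z p) * wt p ∂μ
    rw [integral_mul_const, ← E1 p x, ← integral_mul_const]
    refine integral_congr_ae (Filter.Eventually.of_forall fun h => ?_)
    show φ (x * h * Y p) * wt p * f h = φ (x * h * Y p) * f h * wt p
    ring
  -- Step D
  have hD : ∫ p in B', ∫ h, φ (x * h) * f (h * Z p) * wt p ∂μ ∂ν₀
      = ∫ h, φ (x * h) * ∫ p in B', f (h * Z p) * wt p ∂ν₀ ∂μ := by
    rw [← fubini878 μ ν₀ (Φ := fun h p => φ (x * h) * f (h * Z p) * wt p)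
      (C := tsupport f * (Z '' B)⁻¹) ?_ (hfc.isCompact.mul (hB.image hZ).inv) hB' hB hBB ?_]
    · refine integral_congr_ae (Filter.Eventually.of_forall fun h => ?_)
      show ∫ p in B', φ (x * h) * f (h * Z p) * wt p ∂ν₀
        = φ (x * h) * ∫ p in B', f (h * Z p) * wt p ∂ν₀
      rw [← integral_const_mul]
      refine integral_congr_ae (Filter.Eventually.of_forall fun p => ?_)
      show φ (x * h) * f (h * Z p) * wt p = φ (x * h) * (f (h * Z p) * wt p)
      ring
    · show Continuous fun q : G × P => φ (x * q.1) * f (q.1 * Z q.2) * wt q.2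
      fun_prop
    · intro h hh p hp
      have : h * Z p ∉ tsupport f := by
        intro hmem
        apply hh
        refine ⟨h * Z p, hmem, (Z p)⁻¹, ?_, by group⟩
        exact Set.inv_mem_inv.2 (Set.mem_image_of_mem Z hp)
      rw [image_eq_zero_of_notMem_tsupport this, mul_zero, zero_mul]
  -- Step E
  have hE : ∫ h, φ (x * h) * ∫ p in B', f (h * Z p) * wt p ∂ν₀ ∂μ
      = ∫ h, φ (x * h) * ∫ p in B', f ((Y p)⁻¹ * h) * wt p ∂ν₀ ∂μ := by
    refine integral_congr_ae (Filter.Eventually.of_forall fun h => ?_)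
    show φ (x * h) * ∫ p in B', f (h * Z p) * wt p ∂ν₀
      = φ (x * h) * ∫ p in B', f ((Y p)⁻¹ * h) * wt p ∂ν₀
    rw [E2 h]
  -- Step F
  have hF : ∫ h, φ (x * h) * ∫ p in B', f ((Y p)⁻¹ * h) * wt p ∂ν₀ ∂μ
      = ∫ p in B', ∫ h, φ (x * h) * f ((Y p)⁻¹ * h) * wt p ∂μ ∂ν₀ := by
    rw [← fubini878 μ ν₀ (Φ := fun h p => φ (x * h) * f ((Y p)⁻¹ * h) * wt p)
      (C := (Y '' B) * tsupport f) ?_ ((hB.image hY).mul hfc.isCompact) hB' hB hBB ?_]
    · refine integral_congr_ae (Filter.Eventually.of_forall fun h => ?_)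
      show φ (x * h) * ∫ p in B', f ((Y p)⁻¹ * h) * wt p ∂ν₀
        = ∫ p in B', φ (x * h) * f ((Y p)⁻¹ * h) * wt p ∂ν₀
      rw [← integral_const_mul]
      refine integral_congr_ae (Filter.Eventually.of_forall fun p => ?_)
      show φ (x * h) * (f ((Y p)⁻¹ * h) * wt p) = φ (x * h) * f ((Y p)⁻¹ * h) * wt p
      ring
    · show Continuous fun q : G × P => φ (x * q.1) * f ((Y q.2)⁻¹ * q.1) * wt q.2
      fun_prop
    · intro h hh p hp
      have : (Y p)⁻¹ * h ∉ tsupport f := by
        intro hmem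
        apply hh
        exact ⟨Y p, Set.mem_image_of_mem Y hp, (Y p)⁻¹ * h, hmem, by group⟩
      rw [image_eq_zero_of_notMem_tsupport this, mul_zero, zero_mul]
  -- Step G
  have hG : ∫ p in B', ∫ h, φ (x * h) * f ((Y p)⁻¹ * h) * wt p ∂μ ∂ν₀
      = ∫ p in B', (∫ h, φ (x * Y p * h) * f h ∂μ) * wt p ∂ν₀ := by
    refine integral_congr_ae (Filter.Eventually.of_forall fun p => ?_)
    show ∫ h, φ (x * h) * f ((Y p)⁻¹ * h) * wt p ∂μ = (∫ h, φ (x * Y p * h) * f h ∂μ) * wt p
    rw [integral_mul_const]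
    congr 1
    rw [← integral_mul_left_eq_self (μ := μ) (fun h => φ (x * h) * f ((Y p)⁻¹ * h)) (Y p)]
    refine integral_congr_ae (Filter.Eventually.of_forall fun h => ?_)
    show φ (x * (Y p * h)) * f ((Y p)⁻¹ * (Y p * h)) = φ (x * Y p * h) * f h
    rw [inv_mul_cancel_left, mul_assoc]
  rw [hA, hC, hD, hE, hF, hG]

/-- The mean of a convolution is an integrable function of the parameter. -/
theorem mean_conv_integrable878
    {f φ : G → ℂ} (hf : Continuous f) (hfc : HasCompactSupport f) (hφ : Continuous φ)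
    {Y : P → G} (hY : Continuous Y) {wt : P → ℂ} (hwt : Continuous wt)
    {B' B : Set P} (hB' : MeasurableSet B') (hB : IsCompact B) (hBB : B' ⊆ B) (x : G) :
    IntegrableOn (fun p => (∫ h, φ (x * Y p * h) * f h ∂μ) * wt p) B' ν₀ := by
  have h1 := fubini_int878 μ ν₀ (Φ := fun h p => φ (x * Y p * h) * f h * wt p) (C := tsupport f)
    (by
      show Continuous fun q : G × P => φ (x * Y q.2 * q.1) * f q.1 * wt q.2
      fun_prop) hfc hB' hB hBB (by
      intro h hh p _
      rw [image_eq_zero_of_notMem_tsupport hh, mul_zero, zero_mul])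
  have h2 := h1.integral_prod_right
  refine h2.congr (Filter.Eventually.of_forall fun p => ?_)
  show ∫ h, φ (x * Y p * h) * f h * wt p ∂μ = (∫ h, φ (x * Y p * h) * f h ∂μ) * wt p
  rw [integral_mul_const]

/-- The mean of a continuous function is the integral of an integrable function. -/
theorem mean_integrable878 {φ : G → ℂ} (hφ : Continuous φ)
    {Y : P → G} (hY : Continuous Y) {wt : P → ℂ} (hwt : Continuous wt)
    {B' B : Set P} (hB : IsCompact B) (hBB : B' ⊆ B) (x : G) :
    IntegrableOn (fun p => φ (x * Y p) * wt p) B' ν₀ := by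
  have hc : Continuous fun p => φ (x * Y p) * wt p := by fun_prop
  exact (hc.continuousOn.integrableOn_compact hB).mono_set hBB

end abstract878

end Fermat.Agent.LT.T2.H878

end
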