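import Mathlib
import Fermat.Agent.LT.H556.A0
import Fermat.Agent.LT.T1.Spec
import Fermat.Agent.LT.T2.Spec
import Fermat.Agent.LT.T2.H429.OpsSpec
import Fermat.Agent.LT.T2.H472.LocCont

/-!
# Row LT, tower T2, sub-leaf T2.07.21 (helper878), part 1: elements supported at one infinite place

OFF-MAIN.  Algebra only.

* `exists_local878`: every invertible complex matrix (real at a real place) is the component at
  `w` of an element of `GL₂(𝔸_K)` supported at `w`;
* `G_ext878`, `ext_of_sameAway878`: an element of `GL₂(𝔸_K)` is determined by its components;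
* `biInv_star878` (GELFAND'S TRICK): a function which is bi-invariant under the compact group at
  `w` takes the same value at `g` and at the element obtained from `g` by the conjugate
  transposition of the component at `w` (input: the Cartan decomposition `SubCartanInf429`).
-/

set_option autoImplicit false

open IsDedekindDomain NumberField
open scoped Matrix

noncomputable section

namespace Fermat.Agent.LT.T2.H878

open Fermat.Agent.LT.H556.A0
open Fermat.Agent.LT.T2.H472

variable {K : Type} [Field K] [NumberField K]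

/-! ## 1. Components -/

/-- Two matrices over the adeles with the same components are equal. -/
theorem adlMat_ext878 {A B : Matrix (Fin 2) (Fin 2) (Adl K)}
    (hinf : ∀ u : InfinitePlace K, (cInf472 u).mapMatrix A = (cInf472 u).mapMatrix B)
    (hfin : ∀ v : HeightOneSpectrum (𝓞 K), (cFin472 v).mapMatrix A = (cFin472 v).mapMatrix B) :
    A = B := by
  funext i j
  refine Prod.ext ?_ ?_
  · funext u
    exact congrFun (congrFun (hinf u) i) j
  · refine FiniteAdeleRing.ext K fun v => ?_
    exact congrFun (congrFun (hfin v) i) j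

theorem infComp_eq_map878 (w : InfinitePlace K) (g : G K) :
    infComp w g = (InfinitePlace.Completion.extensionEmbedding w).mapMatrix
      ((cInf472 w).mapMatrix (g : Matrix (Fin 2) (Fin 2) (Adl K))) := rfl

/-- An element of `GL₂(𝔸_K)` is determined by its components. -/
theorem G_ext878 {g g' : G K} (hinf : ∀ u : InfinitePlace K, infComp u g = infComp u g')
    (hfin : ∀ v : HeightOneSpectrum (𝓞 K), finComp v g = finComp v g') : g = g' := by
  apply Units.ext
  apply adlMat_ext878
  · intro u
    funext i j
    have h := congrFun (congrFun (hinf u) i) j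
    exact (InfinitePlace.Completion.extensionEmbedding u).injective h
  · intro v
    exact hfin v

theorem infComp_mul878 (w : InfinitePlace K) (g h : G K) :
    infComp w (g * h) = infComp w g * infComp w h := by
  rw [infComp_eq472, infComp_eq472, infComp_eq472, Units.val_mul, map_mul]

theorem finComp_mul878 (v : HeightOneSpectrum (𝓞 K)) (g h : G K) :
    finComp v (g * h) = finComp v g * finComp v h := by
  rw [finComp_eq472, finComp_eq472, finComp_eq472, Units.val_mul, map_mul]

theorem infComp_one878 (w : InfinitePlace K) : infComp w (1 : G K) = 1 := by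
  rw [infComp_eq472, Units.val_one, map_one]

theorem finComp_one878 (v : HeightOneSpectrum (𝓞 K)) : finComp v (1 : G K) = 1 := by
  rw [finComp_eq472, Units.val_one, map_one]

theorem infComp_of_triv878 {u : InfinitePlace K} {g : G K} (h : TrivAtInf u g) :
    infComp u g = 1 := by
  rw [infComp_eq_map878, (trivAtInf_iff472 u g).1 h, map_one]

/-- At a real place the components are real. -/
theorem infComp_real878 {w : InfinitePlace K} (hw : w.IsReal) (g : G K) (i j : Fin 2) :
    (infComp w g i j).im = 0 := by
  show (InfinitePlace.Completion.extensionEmbedding w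
    (((g : Matrix (Fin 2) (Fin 2) (Adl K)) i j).1 w)).im = 0
  rw [← InfinitePlace.Completion.extensionEmbeddingOfIsReal_apply hw]
  exact Complex.ofReal_im _

/-! ## 2. Elements with the same components away from `w` -/

/-- `g` and `g'` have the same components at all places different from `w`. -/
def SameAway878 (w : InfinitePlace K) (g g' : G K) : Prop :=
  (∀ u : InfinitePlace K, u ≠ w → infComp u g = infComp u g') ∧
    ∀ v : HeightOneSpectrum (𝓞 K), finComp v g = finComp v g'

theorem SameAway878.refl (w : InfinitePlace K) (g : G K) : SameAway878 w g g :=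
  ⟨fun _ _ => rfl, fun _ => rfl⟩

theorem SameAway878.symm {w : InfinitePlace K} {g g' : G K} (h : SameAway878 w g g') :
    SameAway878 w g' g :=
  ⟨fun u hu => (h.1 u hu).symm, fun v => (h.2 v).symm⟩

theorem SameAway878.trans {w : InfinitePlace K} {g g' g'' : G K} (h : SameAway878 w g g')
    (h' : SameAway878 w g' g'') : SameAway878 w g g'' :=
  ⟨fun u hu => (h.1 u hu).trans (h'.1 u hu), fun v => (h.2 v).trans (h'.2 v)⟩

theorem SameAway878.mul {w : InfinitePlace K} {a a' b b' : G K} (h : SameAway878 w a a')
    (h' : SameAway878 w b b') : SameAway878 w (a * b) (a' * b') :=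
  ⟨fun u hu => by rw [infComp_mul878, infComp_mul878, h.1 u hu, h'.1 u hu],
    fun v => by rw [finComp_mul878, finComp_mul878, h.2 v, h'.2 v]⟩

theorem sameAway_of_local878 {w : InfinitePlace K} {k : G K} (h : IsLocalAtInf w k) :
    SameAway878 w k 1 :=
  ⟨fun u hu => by rw [infComp_of_triv878 (h.1 u hu), infComp_one878],
    fun v => by rw [finComp_one878]; exact h.2 v⟩

theorem isLocal_of_sameAway878 {w : InfinitePlace K} {k : G K} (h : SameAway878 w k 1) :
    IsLocalAtInf w k := by
  refine ⟨fun u hu => ?_, fun v => ?_⟩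
  · rw [trivAtInf_iff472]
    have h1 := h.1 u hu
    rw [infComp_one878, infComp_eq_map878] at h1
    funext i j
    have h2 := congrFun (congrFun h1 i) j
    apply (InfinitePlace.Completion.extensionEmbedding u).injective
    refine h2.trans ?_
    by_cases hij : i = j
    · subst hij
      simp
    · simp [Matrix.one_apply_ne hij]
  · have h1 := h.2 v
    rw [finComp_one878] at h1
    exact h1

theorem isLocalAtInf_mul878 {w : InfinitePlace K} {g h : G K} (hg : IsLocalAtInf w g)
    (hh : IsLocalAtInf w h) : IsLocalAtInf w (g * h) := by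
  apply isLocal_of_sameAway878
  have := (sameAway_of_local878 hg).mul (sameAway_of_local878 hh)
  rwa [mul_one] at this

theorem ext_of_sameAway878 {w : InfinitePlace K} {g g' : G K} (h : SameAway878 w g g')
    (hw : infComp w g = infComp w g') : g = g' := by
  refine G_ext878 (fun u => ?_) h.2
  by_cases hu : u = w
  · subst hu
    exact hw
  · exact h.1 u hu

/-- Elements supported at `w` with the same component at `w` are equal. -/
theorem local_unique878 {w : InfinitePlace K} {g g' : G K} (hg : IsLocalAtInf w g)
    (hg' : IsLocalAtInf w g') (hw : infComp w g = infComp w g') : g = g' :=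
  ext_of_sameAway878 ((sameAway_of_local878 hg).trans (sameAway_of_local878 hg').symm) hw

/-! ## 3. Construction of the elements supported at `w` -/

open Classical in
/-- The matrix over the adeles with component `M` at `w` and `1` at the other places. -/
def locMat878 (w : InfinitePlace K) (M : Matrix (Fin 2) (Fin 2) w.Completion) :
    Matrix (Fin 2) (Fin 2) (Adl K) :=
  fun i j =>
    ((Function.update (fun u : InfinitePlace K => (1 : Matrix (Fin 2) (Fin 2) u.Completion) i j)
        w (M i j) : InfiniteAdeleRing K),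
      (1 : Matrix (Fin 2) (Fin 2) (FiniteAdeleRing (𝓞 K) K)) i j)

open Classical in
theorem cInf_locMat_self878 (w : InfinitePlace K) (M : Matrix (Fin 2) (Fin 2) w.Completion) :
    (cInf472 w).mapMatrix (locMat878 w M) = M := by
  funext i j
  show Function.update (fun u : InfinitePlace K => (1 : Matrix (Fin 2) (Fin 2) u.Completion) i j)
    w (M i j) w = M i j
  exact Function.update_self ..

open Classical in
theorem cInf_locMat_ne878 (w : InfinitePlace K) (M : Matrix (Fin 2) (Fin 2) w.Completion)
    {u : InfinitePlace K} (hu : u ≠ w) :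
    (cInf472 u).mapMatrix (locMat878 w M) = 1 := by
  funext i j
  show Function.update (fun u : InfinitePlace K => (1 : Matrix (Fin 2) (Fin 2) u.Completion) i j)
    w (M i j) u = (1 : Matrix (Fin 2) (Fin 2) u.Completion) i j
  exact Function.update_of_ne hu ..

theorem cFin_locMat878 (w : InfinitePlace K) (M : Matrix (Fin 2) (Fin 2) w.Completion)
    (v : HeightOneSpectrum (𝓞 K)) :
    (cFin472 v).mapMatrix (locMat878 w M) = 1 := by
  funext i j
  show ((1 : Matrix (Fin 2) (Fin 2) (FiniteAdeleRing (𝓞 K) K)) i j) v
    = (1 : Matrix (Fin 2) (Fin 2) (v.adicCompletion K)) i j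
  exact one_apply_fin472 v i j

theorem locMat_mul878 (w : InfinitePlace K) (M N : Matrix (Fin 2) (Fin 2) w.Completion) :
    locMat878 w (M * N) = locMat878 (K := K) w M * locMat878 w N := by
  apply adlMat_ext878
  · intro u
    rw [map_mul]
    by_cases hu : u = w
    · subst hu
      rw [cInf_locMat_self878, cInf_locMat_self878, cInf_locMat_self878]
    · rw [cInf_locMat_ne878 _ _ hu, cInf_locMat_ne878 _ _ hu, cInf_locMat_ne878 _ _ hu, mul_one]
  · intro v
    rw [map_mul, cFin_locMat878, cFin_locMat878, cFin_locMat878, mul_one]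

theorem locMat_one878 (w : InfinitePlace K) : locMat878 (K := K) w 1 = 1 := by
  apply adlMat_ext878
  · intro u
    rw [map_one]
    by_cases hu : u = w
    · subst hu
      rw [cInf_locMat_self878]
    · rw [cInf_locMat_ne878 _ _ hu]
  · intro v
    rw [map_one, cFin_locMat878]

/-- The element of `GL₂(𝔸_K)` supported at `w` with component `M`. -/
def locG878 (w : InfinitePlace K) (M N : Matrix (Fin 2) (Fin 2) w.Completion) (h1 : M * N = 1)
    (h2 : N * M = 1) : G K :=
  ⟨locMat878 w M, locMat878 w N, by rw [← locMat_mul878, h1, locMat_one878],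
    by rw [← locMat_mul878, h2, locMat_one878]⟩

/-- **Existence of the elements supported at `w`.** -/
theorem exists_local878 (w : InfinitePlace K) (M : Matrix (Fin 2) (Fin 2) ℂ) (hdet : M.det ≠ 0)
    (hreal : w.IsReal → ∀ i j, (M i j).im = 0) :
    ∃ g : G K, IsLocalAtInf w g ∧ infComp w g = M := by
  have hpre : ∀ i j, ∃ x : w.Completion,
      InfinitePlace.Completion.extensionEmbedding w x = M i j := by
    intro i j
    rcases InfinitePlace.isReal_or_isComplex w with hw | hw
    · refine ⟨(InfinitePlace.Completion.ringEquivRealOfIsReal hw).symm (M i j).re, ?_⟩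
      rw [← InfinitePlace.Completion.extensionEmbeddingOfIsReal_apply hw]
      have h1 : InfinitePlace.Completion.extensionEmbeddingOfIsReal hw
          ((InfinitePlace.Completion.ringEquivRealOfIsReal hw).symm (M i j).re) = (M i j).re :=
        (InfinitePlace.Completion.ringEquivRealOfIsReal hw).apply_symm_apply _
      rw [h1]
      apply Complex.ext
      · simp
      · simp [hreal hw i j]
    · exact InfinitePlace.Completion.surjective_extensionEmbedding_of_isComplex hw (M i j)
  choose M' hM' using hpre
  have hmap : (InfinitePlace.Completion.extensionEmbedding w).mapMatrix (Matrix.of M') = M := by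
    funext i j
    exact hM' i j
  have hdet' : (Matrix.of M').det ≠ 0 := by
    intro h0
    apply hdet
    rw [← hmap, ← RingHom.map_det, h0, map_zero]
  have hu : IsUnit (Matrix.of M').det := IsUnit.mk0 _ hdet'
  refine ⟨locG878 w (Matrix.of M') (Matrix.of M')⁻¹ (Matrix.mul_nonsing_inv _ hu)
    (Matrix.nonsing_inv_mul _ hu), ⟨fun u hu' => ?_, fun v => ?_⟩, ?_⟩
  · rw [trivAtInf_iff472]
    exact cInf_locMat_ne878 w _ hu'
  · show finComp v _ = 1
    rw [finComp_eq472]
    exact cFin_locMat878 w _ v
  · rw [infComp_eq_map878]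
    show (InfinitePlace.Completion.extensionEmbedding w).mapMatrix
      ((cInf472 w).mapMatrix (locMat878 w (Matrix.of M'))) = M
    rw [cInf_locMat_self878, hmap]

/-! ## 4. The compact group at `w` -/

theorem isArchCompact_inv878 {w : InfinitePlace K} {k : G K} (hk : IsArchCompact w k) :
    IsArchCompact w k⁻¹ := by
  obtain ⟨hloc, hu, hd⟩ := hk
  have hinv : (infComp w k)⁻¹ = (infComp w k)ᴴ := Matrix.inv_eq_right_inv hu
  refine ⟨isLocalAtInf_inv472 hloc, ?_, fun hw => ?_⟩
  · rw [infComp_inv472, hinv, Matrix.conjTranspose_conjTranspose]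
    exact mul_eq_one_comm.1 hu
  · rw [infComp_inv472, Matrix.det_nonsing_inv, hd hw]
    simp

theorem isArchCompact_mul878 {w : InfinitePlace K} {k k' : G K} (hk : IsArchCompact w k)
    (hk' : IsArchCompact w k') : IsArchCompact w (k * k') := by
  obtain ⟨hloc, hu, hd⟩ := hk
  obtain ⟨hloc', hu', hd'⟩ := hk'
  refine ⟨isLocalAtInf_mul878 hloc hloc', ?_, fun hw => ?_⟩
  · rw [infComp_mul878, Matrix.conjTranspose_mul]
    calc infComp w k * infComp w k' * ((infComp w k')ᴴ * (infComp w k)ᴴ)
        = infComp w k * (infComp w k' * (infComp w k')ᴴ) * (infComp w k)ᴴ := by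
          simp only [mul_assoc]
      _ = 1 := by rw [hu', mul_one, hu]
  · rw [infComp_mul878, Matrix.det_mul, hd hw, hd' hw, mul_one]

/-- The element supported at `w` with a given unitary component (of determinant one at a real
place) belongs to the compact group. -/
theorem exists_archCompact878 (w : InfinitePlace K) (k : Matrix (Fin 2) (Fin 2) ℂ)
    (hu : k * kᴴ = 1) (hreal : w.IsReal → (∀ i j, (k i j).im = 0) ∧ k.det = 1) :
    ∃ g : G K, IsArchCompact w g ∧ infComp w g = k := by
  have hdet : k.det ≠ 0 := by
    have h := congrArg Matrix.det hu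
    rw [Matrix.det_mul, Matrix.det_one] at h
    exact left_ne_zero_of_mul_eq_one h
  obtain ⟨g, hloc, hg⟩ := exists_local878 w k hdet (fun hw => (hreal hw).1)
  exact ⟨g, ⟨hloc, by rw [hg]; exact hu, fun hw => by rw [hg]; exact (hreal hw).2⟩, hg⟩

/-! ## 5. Gelfand's trick -/

/-- **Gelfand's trick.**  A function which is left and right invariant under the compact group at
`w` is invariant under the conjugate transposition of the component at `w`. -/
theorem biInv_star878 (hC : H429.SubCartanInf429) (w : InfinitePlace K) (F : G K → ℂ)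
    (hR : ∀ k : G K, IsArchCompact w k → ∀ g, F (g * k) = F g)
    (hL : ∀ k : G K, IsArchCompact w k → ∀ g, F (k * g) = F g)
    {g g' : G K} (hs : SameAway878 w g g') (hw : infComp w g' = (infComp w g)ᴴ) :
    F g' = F g := by
  obtain ⟨k₁, k₂, a, b, hk₁, hk₂, hg, hre⟩ := hC (infComp w g) (det_infComp_ne_zero472 w g)
  have hre' : w.IsReal → (∀ i j, (k₁ i j).im = 0) ∧ (∀ i j, (k₂ i j).im = 0) ∧ k₁.det = 1 ∧
      k₂.det = 1 ∧ a.im = 0 ∧ b.im = 0 := fun hr => hre (fun i j => infComp_real878 hr g i j)
  obtain ⟨K₁, hK₁, hK₁c⟩ := exists_archCompact878 (K := K) w k₁ hk₁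
    (fun hr => ⟨(hre' hr).1, (hre' hr).2.2.1⟩)
  obtain ⟨K₂, hK₂, hK₂c⟩ := exists_archCompact878 (K := K) w k₂ hk₂
    (fun hr => ⟨(hre' hr).2.1, (hre' hr).2.2.2.1⟩)
  -- the diagonal entries do not vanish
  have hdet : (infComp w g).det ≠ 0 := det_infComp_ne_zero472 w g
  have hab : a ≠ 0 ∧ b ≠ 0 := by
    rw [hg, Matrix.det_mul, Matrix.det_mul, Matrix.det_diagonal] at hdet
    simp only [Fin.prod_univ_two, Matrix.cons_val_zero, Matrix.cons_val_one] at hdet
    constructor
    · rintro rfl
      simp at hdet
    · rintro rfl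
      simp at hdet
  obtain ⟨ha, hb⟩ := hab
  have hca : (starRingEnd ℂ) a ≠ 0 := by simpa using ha
  have hcb : (starRingEnd ℂ) b ≠ 0 := by simpa using hb
  -- the unitary diagonal matrix of the phases
  set u : Matrix (Fin 2) (Fin 2) ℂ :=
    Matrix.diagonal ![(starRingEnd ℂ) a / a, (starRingEnd ℂ) b / b] with hu
  have huu : u * uᴴ = 1 := by
    rw [hu, Matrix.diagonal_conjTranspose, Matrix.diagonal_mul_diagonal, ← Matrix.diagonal_one]
    congr 1
    funext i
    fin_cases i
    · simp
      field_simp
    · simp
      field_simp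
  have hDu : Matrix.diagonal ![a, b] * u = (Matrix.diagonal ![a, b])ᴴ := by
    rw [hu, Matrix.diagonal_conjTranspose, Matrix.diagonal_mul_diagonal]
    congr 1
    funext i
    fin_cases i
    · simp
      field_simp
    · simp
      field_simp
  have hureal : w.IsReal → (∀ i j, (u i j).im = 0) ∧ u.det = 1 := by
    intro hr
    have ha' : (starRingEnd ℂ) a = a := Complex.conj_eq_iff_im.2 (hre' hr).2.2.2.2.1
    have hb' : (starRingEnd ℂ) b = b := Complex.conj_eq_iff_im.2 (hre' hr).2.2.2.2.2
    have hu1 : u = 1 := by
      rw [hu, ha', hb', div_self ha, div_self hb, ← Matrix.diagonal_one]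
      congr 1
      funext i
      fin_cases i <;> rfl
    rw [hu1]
    refine ⟨fun i j => ?_, Matrix.det_one⟩
    by_cases hij : i = j
    · subst hij
      simp
    · simp [Matrix.one_apply_ne hij]
  obtain ⟨U, hU, hUc⟩ := exists_archCompact878 (K := K) w u huu hureal
  have hK₁i := isArchCompact_inv878 hK₁
  have hK₂i := isArchCompact_inv878 hK₂
  have hk₁' : k₁ᴴ * k₁ = 1 := mul_eq_one_comm.1 hk₁
  have hk₁inv : k₁⁻¹ = k₁ᴴ := Matrix.inv_eq_right_inv hk₁
  have hk₂inv : k₂⁻¹ = k₂ᴴ := Matrix.inv_eq_right_inv hk₂
  -- the key identity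
  have key : K₂ * g' * K₁ = K₁⁻¹ * g * K₂⁻¹ * U := by
    apply ext_of_sameAway878 (w := w)
    · have e1 : SameAway878 w (K₂ * g' * K₁) (1 * g * 1) :=
        ((sameAway_of_local878 hK₂.1).mul hs.symm).mul (sameAway_of_local878 hK₁.1)
      have e2 : SameAway878 w (K₁⁻¹ * g * K₂⁻¹ * U) (1 * g * 1 * 1) :=
        (((sameAway_of_local878 hK₁i.1).mul (SameAway878.refl w g)).mul
          (sameAway_of_local878 hK₂i.1)).mul (sameAway_of_local878 hU.1)
      rw [mul_one] at e2
      exact e1.trans e2.symm
    · rw [infComp_mul878, infComp_mul878, infComp_mul878, infComp_mul878, infComp_mul878,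
        infComp_inv472, infComp_inv472, hK₁c, hK₂c, hUc, hw, hk₁inv, hk₂inv, hg]
      simp only [Matrix.conjTranspose_mul]
      calc k₂ * (k₂ᴴ * ((Matrix.diagonal ![a, b])ᴴ * k₁ᴴ)) * k₁
          = (k₂ * k₂ᴴ) * (Matrix.diagonal ![a, b])ᴴ * (k₁ᴴ * k₁) := by
            simp only [mul_assoc]
        _ = (Matrix.diagonal ![a, b])ᴴ := by rw [hk₂, hk₁', one_mul, mul_one]
        _ = Matrix.diagonal ![a, b] * u := hDu.symm
        _ = (k₁ᴴ * k₁) * Matrix.diagonal ![a, b] * (k₂ * k₂ᴴ) * u := by
            rw [hk₂, hk₁', one_mul, mul_one]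
        _ = k₁ᴴ * (k₁ * Matrix.diagonal ![a, b] * k₂) * k₂ᴴ * u := by
            simp only [mul_assoc]
  calc F g' = F (K₂ * g') := (hL K₂ hK₂ g').symm
    _ = F (K₂ * g' * K₁) := (hR K₁ hK₁ _).symm
    _ = F (K₁⁻¹ * g * K₂⁻¹ * U) := by rw [key]
    _ = F (K₁⁻¹ * g * K₂⁻¹) := hR U hU _
    _ = F (K₁⁻¹ * g) := hR K₂⁻¹ hK₂i _
    _ = F g := hL K₁⁻¹ hK₁i g

/-- Every element has a conjugate transpose at `w`. -/
theorem exists_star878 (w : InfinitePlace K) (h : G K) :
    ∃ h' : G K, SameAway878 w h h' ∧ infComp w h' = (infComp w h)ᴴ := by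
  have hdet : (infComp w h).det ≠ 0 := det_infComp_ne_zero472 w h
  obtain ⟨L, hL, hLc⟩ := exists_local878 (K := K) w (infComp w h) hdet
    (fun hr i j => infComp_real878 hr h i j)
  have hdet' : ((infComp w h)ᴴ).det ≠ 0 := by
    rw [Matrix.det_conjTranspose]
    simpa using hdet
  obtain ⟨L', hL', hLc'⟩ := exists_local878 (K := K) w (infComp w h)ᴴ hdet'
    (fun hr i j => by
      rw [Matrix.conjTranspose_apply, Complex.star_def, Complex.conj_im,
        infComp_real878 hr h j i, neg_zero])
  refine ⟨h * L⁻¹ * L', ?_, ?_⟩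
  · have e : SameAway878 w (h * L⁻¹ * L') (h * 1 * 1) :=
      ((SameAway878.refl w h).mul (sameAway_of_local878 (isLocalAtInf_inv472 hL))).mul
        (sameAway_of_local878 hL')
    rw [mul_one, mul_one] at e
    exact e.symm
  · rw [infComp_mul878, infComp_mul878, infComp_inv472, hLc, hLc',
      Matrix.mul_nonsing_inv _ (IsUnit.mk0 _ hdet), one_mul]

/-- The conjugate transpose at `w` of a product with an element supported at `w`. -/
theorem star_mul878 {w : InfinitePlace K} {y h h' z : G K} (hy : IsLocalAtInf w y)
    (hz : IsLocalAtInf w z) (hzc : infComp w z = (infComp w y)ᴴ) (hs : SameAway878 w h h')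
    (hh : infComp w h' = (infComp w h)ᴴ) :
    SameAway878 w (y * h) (h' * z) ∧ infComp w (h' * z) = (infComp w (y * h))ᴴ := by
  constructor
  · have e1 : SameAway878 w (y * h) (1 * h') := (sameAway_of_local878 hy).mul hs
    have e2 : SameAway878 w (h' * z) (h' * 1) :=
      (SameAway878.refl w h').mul (sameAway_of_local878 hz)
    rw [one_mul] at e1
    rw [mul_one] at e2
    exact e1.trans e2.symm
  · rw [infComp_mul878, infComp_mul878, Matrix.conjTranspose_mul, hzc, hh]

end Fermat.Agent.LT.T2.H878

end
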