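import Mathlib
import Fermat.Agent.LT.H556.A0

/-!
# Row LT, tower T2, sub-leaf T2.07.21 (helper878), part 0: the matrices `rotZ`, `rotY`, `torus`

OFF-MAIN.  Elementary identities for the matrices of `LT/H556/A0.lean`.
-/

set_option autoImplicit false

open scoped Matrix

noncomputable section

namespace Fermat.Agent.LT.T2.H878

open Fermat.Agent.LT.H556.A0

theorem rotZ_zero878 : rotZ 0 = 1 := by
  ext i j
  fin_cases i <;> fin_cases j <;> simp [rotZ]

theorem rotY_zero878 : rotY 0 = 1 := by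
  ext i j
  fin_cases i <;> fin_cases j <;> simp [rotY]

/-- A real diagonal matrix. -/
def diagR878 (x y : ℝ) : Matrix (Fin 2) (Fin 2) ℂ := !![(x : ℂ), 0; 0, (y : ℂ)]

theorem diagR_herm878 (x y : ℝ) : (diagR878 x y)ᴴ = diagR878 x y := by
  ext i j
  fin_cases i <;> fin_cases j <;> simp [diagR878, Matrix.conjTranspose_apply]

theorem diagR_mul878 (x y x' y' : ℝ) (h1 : x * x' = 1) (h2 : y * y' = 1) :
    diagR878 x y * diagR878 x' y' = 1 := by
  have h1' : (x : ℂ) * (x' : ℂ) = 1 := by exact_mod_cast h1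
  have h2' : (y : ℂ) * (y' : ℂ) = 1 := by exact_mod_cast h2
  ext i j
  fin_cases i <;> fin_cases j <;>
    simp [diagR878, Matrix.mul_apply, Fin.sum_univ_two, h1', h2']

theorem torus_eq878 (d : ℝ) : torus d = diagR878 (Real.exp (d / 2)) (Real.exp (-(d / 2))) := rfl

theorem torus_herm878 (d : ℝ) : (torus d)ᴴ = torus d := by
  rw [torus_eq878, diagR_herm878]

theorem torus_mul_neg878 (d : ℝ) : torus d * torus (-d) = 1 := by
  rw [torus_eq878, torus_eq878]
  apply diagR_mul878
  · rw [← Real.exp_add]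
    have : d / 2 + -d / 2 = 0 := by ring
    rw [this, Real.exp_zero]
  · rw [← Real.exp_add]
    have : -(d / 2) + -(-d / 2) = 0 := by ring
    rw [this, Real.exp_zero]

theorem torus_inv878 (d : ℝ) : (torus d)⁻¹ = torus (-d) :=
  Matrix.inv_eq_right_inv (torus_mul_neg878 d)

theorem det_torus878 (d : ℝ) : (torus d).det ≠ 0 := by
  have h := congrArg Matrix.det (torus_mul_neg878 d)
  rw [Matrix.det_mul, Matrix.det_one] at h
  exact left_ne_zero_of_mul_eq_one h

/-- A unitary diagonal matrix. -/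
theorem diagU_unitary878 (z z' : ℂ) (h1 : (starRingEnd ℂ) z = z') (h2 : z * z' = 1) :
    (!![z, 0; 0, z'] : Matrix (Fin 2) (Fin 2) ℂ) * (!![z, 0; 0, z'] : Matrix (Fin 2) (Fin 2) ℂ)ᴴ
      = 1 := by
  have h3 : (starRingEnd ℂ) z' = z := by rw [← h1, Complex.conj_conj]
  have h4 : z' * z = 1 := by rw [mul_comm]; exact h2
  ext i j
  fin_cases i <;> fin_cases j <;>
    simp [Matrix.mul_apply, Fin.sum_univ_two, Matrix.conjTranspose_apply, h1, h2, h3, h4]

theorem rotZ_unitary878 (α : ℝ) : rotZ α * (rotZ α)ᴴ = 1 := by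
  unfold rotZ
  apply diagU_unitary878
  · rw [← Complex.exp_conj]
    congr 1
    rw [map_mul, Complex.conj_I, Complex.conj_ofReal]
    ring
  · rw [← Complex.exp_add]
    simp

/-- A real rotation matrix. -/
def rotGen878 (c s : ℝ) : Matrix (Fin 2) (Fin 2) ℂ := !![(c : ℂ), -(s : ℂ); (s : ℂ), (c : ℂ)]

theorem rotY_eq878 (β : ℝ) : rotY β = rotGen878 (Real.cos (β / 2)) (Real.sin (β / 2)) := rfl

theorem rotGen_unitary878 (c s : ℝ) (h : c ^ 2 + s ^ 2 = 1) :
    rotGen878 c s * (rotGen878 c s)ᴴ = 1 := by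
  have h' : (c : ℂ) ^ 2 + (s : ℂ) ^ 2 = 1 := by exact_mod_cast h
  ext i j
  fin_cases i <;> fin_cases j <;>
    simp [rotGen878, Matrix.mul_apply, Fin.sum_univ_two, Matrix.conjTranspose_apply] <;>
    first | ring1 | linear_combination h'

theorem rotGen_det878 (c s : ℝ) (h : c ^ 2 + s ^ 2 = 1) : (rotGen878 c s).det = 1 := by
  have h' : (c : ℂ) ^ 2 + (s : ℂ) ^ 2 = 1 := by exact_mod_cast h
  rw [Matrix.det_fin_two]
  simp [rotGen878]
  linear_combination h'

theorem rotGen_real878 (c s : ℝ) (i j : Fin 2) : (rotGen878 c s i j).im = 0 := by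
  fin_cases i <;> fin_cases j <;> simp [rotGen878]

theorem rotY_unitary878 (β : ℝ) : rotY β * (rotY β)ᴴ = 1 := by
  rw [rotY_eq878]
  exact rotGen_unitary878 _ _ (Real.cos_sq_add_sin_sq _)

theorem rotY_det878 (β : ℝ) : (rotY β).det = 1 := by
  rw [rotY_eq878]
  exact rotGen_det878 _ _ (Real.cos_sq_add_sin_sq _)

theorem rotY_real878 (β : ℝ) (i j : Fin 2) : (rotY β i j).im = 0 := by
  rw [rotY_eq878]
  exact rotGen_real878 _ _ i j

theorem rotY_add878 (θ₀ θ : ℝ) : rotY θ₀ * rotY θ = rotY (θ₀ + θ) := by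
  have e : (θ₀ + θ) / 2 = θ₀ / 2 + θ / 2 := by ring
  ext i j
  fin_cases i <;> fin_cases j <;>
    simp [rotY, Matrix.mul_apply, Fin.sum_univ_two, e, Real.cos_add, Real.sin_add] <;> ring

theorem rotY_two_pi878 : rotY (2 * Real.pi) = -1 := by
  have e : 2 * Real.pi / 2 = Real.pi := by ring
  ext i j
  fin_cases i <;> fin_cases j <;> simp [rotY, e]

theorem rotY_add_two_pi878 (θ : ℝ) : rotY (θ + 2 * Real.pi) = rotY θ * rotY (2 * Real.pi) :=
  (rotY_add878 θ (2 * Real.pi)).symm

theorem continuous_rotZ_entry878 (i j : Fin 2) : Continuous fun α : ℝ => rotZ α i j := by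
  fin_cases i <;> fin_cases j <;> simp [rotZ] <;> fun_prop

theorem continuous_rotY_entry878 (i j : Fin 2) : Continuous fun β : ℝ => rotY β i j := by
  fin_cases i <;> fin_cases j <;> simp [rotY] <;> fun_prop

theorem continuous_rotZ878 : Continuous rotZ := continuous_matrix continuous_rotZ_entry878

theorem continuous_rotY878 : Continuous rotY := continuous_matrix continuous_rotY_entry878

/-- A real unitary matrix of determinant one is a rotation `rotY θ₀`. -/
theorem so2_eq_rotY878 (κ : Matrix (Fin 2) (Fin 2) ℂ) (hu : κ * κᴴ = 1)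
    (hre : ∀ i j, (κ i j).im = 0) (hdet : κ.det = 1) : ∃ θ₀ : ℝ, κ = rotY θ₀ := by
  have hc : ∀ i j, (starRingEnd ℂ) (κ i j) = κ i j := fun i j =>
    Complex.conj_eq_iff_im.2 (hre i j)
  have h00 := congrFun (congrFun hu 0) 0
  have h01 := congrFun (congrFun hu 0) 1
  have h11 := congrFun (congrFun hu 1) 1
  simp only [Matrix.mul_apply, Fin.sum_univ_two, Matrix.conjTranspose_apply, Complex.star_def,
    hc, Matrix.one_apply_eq, Matrix.one_apply_ne, ne_eq, zero_ne_one, not_false_eq_true,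
    Fin.isValue] at h00 h01 h11
  rw [Matrix.det_fin_two] at hdet
  -- `d = a`, `b = -c`
  have hd : κ 1 1 = κ 0 0 := by
    linear_combination (-(κ 1 1)) * h00 + (κ 0 0) * hdet + (κ 0 1) * h01
  have hb : κ 0 1 = -κ 1 0 := by
    linear_combination (-(κ 1 0)) * h00 - (κ 0 1) * hdet + (κ 0 0) * h01
  -- the angle
  set z : ℂ := ⟨(κ 0 0).re, (κ 1 0).re⟩ with hz
  have ha : κ 0 0 = ((κ 0 0).re : ℂ) := Complex.ext rfl (by simp [hre 0 0])
  have hcc : κ 1 0 = ((κ 1 0).re : ℂ) := Complex.ext rfl (by simp [hre 1 0])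
  have hsq : (κ 0 0).re ^ 2 + (κ 1 0).re ^ 2 = 1 := by
    have h := h00
    rw [hb, ha, hcc] at h
    have h2 : (((κ 0 0).re * (κ 0 0).re + (κ 1 0).re * (κ 1 0).re : ℝ) : ℂ) = ((1 : ℝ) : ℂ) := by
      push_cast
      linear_combination h
    have h3 := Complex.ofReal_injective h2
    nlinarith [h3]
  have hnorm : ‖z‖ = 1 := by
    rw [Complex.norm_eq_sqrt_sq_add_sq]
    simp only [hz]
    rw [hsq, Real.sqrt_one]
  have hz0 : z ≠ 0 := by
    intro h0
    rw [h0, norm_zero] at hnorm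
    exact zero_ne_one hnorm
  have hcos : Real.cos (Complex.arg z) = (κ 0 0).re := by
    rw [Complex.cos_arg hz0, hnorm, div_one]
  have hsin : Real.sin (Complex.arg z) = (κ 1 0).re := by
    rw [Complex.sin_arg, hnorm, div_one]
  refine ⟨2 * Complex.arg z, ?_⟩
  have e : 2 * Complex.arg z / 2 = Complex.arg z := by ring
  ext i j
  fin_cases i <;> fin_cases j
  · simp only [rotY, e, hcos]
    simpa using ha
  · simp only [rotY, e, hsin]
    simpa using hb.trans (by rw [← hcc])
  · simp only [rotY, e, hsin]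
    simpa using hcc
  · simp only [rotY, e, hcos]
    simpa using hd.trans ha

end Fermat.Agent.LT.T2.H878

end
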