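import Mathlib
import Fermat.Agent.LT.H556.A0
import Fermat.Agent.LT.T1.Spec
import Fermat.Agent.LT.T2.Spec
import Fermat.Agent.LT.T2.H429.OpsSpec
import Fermat.Agent.LT.T2.H472.LocCont
import Fermat.Agent.LT.T2.H878.LocalAlg
import Fermat.Agent.LT.T2.H878.FubiniMean

/-!
# Row LT, tower T2, sub-leaf T2.07.21 (helper878), part 3: families `Y_p = k_p a` at one place

OFF-MAIN.  A family `Y : P → GL₂(𝔸_K)` of elements supported at the infinite place `w`,
`Y_p = k_p a` with `k_p` in the compact group at `w` and `a` supported at `w` with a Hermitian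
component (`Fam878`), and `Z_p = k_p a⁻¹`.

* `fam_E1_878`: `∫ φ(x h Y_p) f(h) dh = ∫ φ(x h) f(h Z_p) dh` (right invariance of the measure,
  right invariance of `f` and `φ` under the compact group at `w`);
* `fam_E2_878`: the equality of the kernels, from Gelfand's trick (`biInv_star878`) and the
  invariance `RI` of the mean under the compact group;
* `comm_fam878`: the convolution by `f` commutes with the mean over the family.
-/

set_option autoImplicit false
set_option linter.unusedSectionVars false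

open IsDedekindDomain NumberField MeasureTheory Set
open scoped Matrix Pointwise

noncomputable section

namespace Fermat.Agent.LT.T2.H878

open Fermat.Agent.LT.H556.A0
open Fermat.Agent.LT.T2
open Fermat.Agent.LT.T2.H472

variable {K : Type} [Field K] [NumberField K]

attribute [local instance] Fermat.Agent.LT.T2.borelG

/-- A family `Y_p = k_p a` at the infinite place `w`. -/
structure Fam878 (w : InfinitePlace K) {P : Type} (Y : P → G K) where
  /-- the torus element -/
  a : G K
  a_loc : IsLocalAtInf w a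
  a_herm : (infComp w a)ᴴ = infComp w a
  /-- the compact parts -/
  k : P → G K
  k_cpt : ∀ p, IsArchCompact w (k p)
  Y_eq : ∀ p, Y p = k p * a

/-- The family `Z_p = k_p a⁻¹`. -/
def Fam878.Z {w : InfinitePlace K} {P : Type} {Y : P → G K} (D : Fam878 w Y) : P → G K :=
  fun p => D.k p * D.a⁻¹

theorem Fam878.Y_loc {w : InfinitePlace K} {P : Type} {Y : P → G K} (D : Fam878 w Y) (p : P) :
    IsLocalAtInf w (Y p) := by
  rw [D.Y_eq p]
  exact isLocalAtInf_mul878 (D.k_cpt p).1 D.a_loc

theorem Fam878.Z_loc {w : InfinitePlace K} {P : Type} {Y : P → G K} (D : Fam878 w Y) (p : P) :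
    IsLocalAtInf w (D.Z p) :=
  isLocalAtInf_mul878 (D.k_cpt p).1 (isLocalAtInf_inv472 D.a_loc)

/-- The component of `Z_p` is the conjugate transpose of the component of `Y_p⁻¹`. -/
theorem Fam878.Z_star {w : InfinitePlace K} {P : Type} {Y : P → G K} (D : Fam878 w Y) (p : P) :
    infComp w (D.Z p) = (infComp w (Y p)⁻¹)ᴴ := by
  have hu := (D.k_cpt p).2.1
  have hinv : (infComp w (D.k p))⁻¹ = (infComp w (D.k p))ᴴ := Matrix.inv_eq_right_inv hu
  rw [D.Y_eq p, mul_inv_rev, infComp_mul878, Fam878.Z, infComp_mul878, infComp_inv472,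
    infComp_inv472, Matrix.conjTranspose_mul, hinv, Matrix.conjTranspose_conjTranspose,
    Matrix.conjTranspose_nonsing_inv, D.a_herm]

section analysis878

variable (F : Frame K)

/-- `E1` for a family. -/
theorem fam_E1_878 [F.μ.IsMulRightInvariant] [MeasurableMul (G K)]
    {w : InfinitePlace K} {P : Type} {Y : P → G K}
    (D : Fam878 w Y) {f φ : G K → ℂ}
    (hfR : ∀ k : G K, IsArchCompact w k → ∀ g, f (g * k) = f g)
    (hφR : ∀ k : G K, IsArchCompact w k → ∀ g, φ (g * k) = φ g) (p : P) (x : G K) :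
    ∫ h, φ (x * h * Y p) * f h ∂F.μ = ∫ h, φ (x * h) * f (h * D.Z p) ∂F.μ := by
  have hki := isArchCompact_inv878 (D.k_cpt p)
  have h1 : ∫ h, φ (x * h * Y p) * f h ∂F.μ = ∫ h, φ (x * h * D.a) * f h ∂F.μ := by
    rw [← integral_mul_right_eq_self (μ := F.μ) (fun h => φ (x * h * Y p) * f h) (D.k p)⁻¹]
    refine integral_congr_ae (Filter.Eventually.of_forall fun h => ?_)
    show φ (x * (h * (D.k p)⁻¹) * Y p) * f (h * (D.k p)⁻¹) = φ (x * h * D.a) * f h
    rw [hfR _ hki, D.Y_eq p]
    congr 2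
    group
  have h2 : ∫ h, φ (x * h) * f (h * D.Z p) ∂F.μ = ∫ h, φ (x * h * D.a) * f h ∂F.μ := by
    rw [← integral_mul_right_eq_self (μ := F.μ) (fun h => φ (x * h) * f (h * D.Z p))
      (D.a * (D.k p)⁻¹)]
    refine integral_congr_ae (Filter.Eventually.of_forall fun h => ?_)
    show φ (x * (h * (D.a * (D.k p)⁻¹))) * f (h * (D.a * (D.k p)⁻¹) * D.Z p)
      = φ (x * h * D.a) * f h
    have e1 : x * (h * (D.a * (D.k p)⁻¹)) = x * h * D.a * (D.k p)⁻¹ := by group
    have e2 : h * (D.a * (D.k p)⁻¹) * D.Z p = h := by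
      unfold Fam878.Z
      group
    rw [e1, e2, hφR _ hki]
  rw [h1, h2]

/-- `E2` for a family: the equality of the kernels (Gelfand's trick). -/
theorem fam_E2_878 (hC : H429.SubCartanInf429)
    {w : InfinitePlace K} {P : Type} [MeasurableSpace P] (ν₀ : Measure P) (B' : Set P)
    {Y : P → G K} (D : Fam878 w Y) {f : G K → ℂ} (wt : P → ℂ)
    (hfR : ∀ k : G K, IsArchCompact w k → ∀ g, f (g * k) = f g)
    (hfL : ∀ k : G K, IsArchCompact w k → ∀ g, f (k * g) = f g)
    (RI : ∀ (h k' : G K), IsArchCompact w k' →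
      ∫ p in B', f (h * k' * D.Z p) * wt p ∂ν₀ = ∫ p in B', f (h * D.Z p) * wt p ∂ν₀)
    (h : G K) :
    ∫ p in B', f ((Y p)⁻¹ * h) * wt p ∂ν₀ = ∫ p in B', f (h * D.Z p) * wt p ∂ν₀ := by
  obtain ⟨h', hs, hh⟩ := exists_star878 w h
  have step1 : ∀ p, f ((Y p)⁻¹ * h) = f (h' * D.Z p) := by
    intro p
    have hsm := star_mul878 (y := (Y p)⁻¹) (z := D.Z p) (isLocalAtInf_inv472 (D.Y_loc p))
      (D.Z_loc p) (D.Z_star p) hs hh
    exact (biInv_star878 hC w f hfR hfL hsm.1 hsm.2).symm
  have step2 : ∫ p in B', f (h' * D.Z p) * wt p ∂ν₀ = ∫ p in B', f (h * D.Z p) * wt p ∂ν₀ := by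
    refine biInv_star878 hC w (fun g => ∫ p in B', f (g * D.Z p) * wt p ∂ν₀) ?_ ?_ hs hh
    · intro k' hk' g
      exact RI g k' hk'
    · intro k' hk' g
      show ∫ p in B', f (k' * g * D.Z p) * wt p ∂ν₀ = ∫ p in B', f (g * D.Z p) * wt p ∂ν₀
      refine integral_congr_ae (Filter.Eventually.of_forall fun p => ?_)
      show f (k' * g * D.Z p) * wt p = f (g * D.Z p) * wt p
      rw [mul_assoc, hfL k' hk']
  rw [← step2]
  refine integral_congr_ae (Filter.Eventually.of_forall fun p => ?_)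
  show f ((Y p)⁻¹ * h) * wt p = f (h' * D.Z p) * wt p
  rw [step1 p]

theorem Fam878.Z_eq {w : InfinitePlace K} {P : Type} {Y : P → G K} (D : Fam878 w Y) (p : P) :
    D.Z p = Y p * D.a⁻¹ * D.a⁻¹ := by
  rw [D.Y_eq p, Fam878.Z]
  group

/-- **The convolution by `f` commutes with the mean over the family.** -/
theorem comm_fam878 (hC : H429.SubCartanInf429) (ht1 : T1.T1Out K) (F : Frame K)
    {w : InfinitePlace K} {P : Type} [TopologicalSpace P] [T2Space P]
    [SecondCountableTopology P] [MeasurableSpace P] [BorelSpace P] (ν₀ : Measure P)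
    [IsFiniteMeasureOnCompacts ν₀] [SFinite ν₀]
    {B' B : Set P} (hB' : MeasurableSet B') (hB : IsCompact B) (hBB : B' ⊆ B)
    {Y : P → G K} (hY : Continuous Y) (D : Fam878 w Y) {wt : P → ℂ} (hwt : Continuous wt)
    {f φ : G K → ℂ} (hf : Continuous f) (hfc : HasCompactSupport f) (hφ : Continuous φ)
    (hfR : ∀ k : G K, IsArchCompact w k → ∀ g, f (g * k) = f g)
    (hfL : ∀ k : G K, IsArchCompact w k → ∀ g, f (k * g) = f g)
    (hφR : ∀ k : G K, IsArchCompact w k → ∀ g, φ (g * k) = φ g)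
    (RI : ∀ (h k' : G K), IsArchCompact w k' →
      ∫ p in B', f (h * k' * D.Z p) * wt p ∂ν₀ = ∫ p in B', f (h * D.Z p) * wt p ∂ν₀)
    (x : G K) :
    ∫ h, (∫ p in B', φ (x * h * Y p) * wt p ∂ν₀) * f h ∂F.μ
      = ∫ p in B', (∫ h, φ (x * Y p * h) * f h ∂F.μ) * wt p ∂ν₀ := by
  obtain ⟨-, hlc, ht2, hsc⟩ := ht1.locComp
  have := hlc
  have := ht2
  have := hsc
  have : BorelSpace (G K) := ⟨rfl⟩
  have := F.haar
  have : F.μ.IsMulRightInvariant := ht1.unimod F.μ F.haar
  have hZ : Continuous D.Z := by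
    have : D.Z = fun p => Y p * D.a⁻¹ * D.a⁻¹ := funext D.Z_eq
    rw [this]
    exact (hY.mul continuous_const).mul continuous_const
  exact comm_abstract878 F.μ ν₀ hf hfc hφ hY hZ hwt hB' hB hBB
    (fam_E1_878 F D hfR hφR) (fam_E2_878 hC ν₀ B' D wt hfR hfL RI) x

/-- Integrability of the mean of a convolution (for the conversion of the iterated integrals). -/
theorem fam_mean_conv_integrable878 (ht1 : T1.T1Out K) (F : Frame K)
    {P : Type} [TopologicalSpace P] [T2Space P]
    [SecondCountableTopology P] [MeasurableSpace P] [BorelSpace P] (ν₀ : Measure P)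
    [IsFiniteMeasureOnCompacts ν₀] [SFinite ν₀]
    {B' B : Set P} (hB' : MeasurableSet B') (hB : IsCompact B) (hBB : B' ⊆ B)
    {Y : P → G K} (hY : Continuous Y) {wt : P → ℂ} (hwt : Continuous wt)
    {f φ : G K → ℂ} (hf : Continuous f) (hfc : HasCompactSupport f) (hφ : Continuous φ)
    (x : G K) :
    IntegrableOn (fun p => (∫ h, φ (x * Y p * h) * f h ∂F.μ) * wt p) B' ν₀ := by
  obtain ⟨-, hlc, ht2, hsc⟩ := ht1.locComp
  have := hlc
  have := ht2
  have := hsc
  have : BorelSpace (G K) := ⟨rfl⟩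
  have := F.haar
  exact mean_conv_integrable878 F.μ ν₀ hf hfc hφ hY hwt hB' hB hBB x

/-- Integrability of the integrand of a mean. -/
theorem fam_mean_integrable878 (ht1 : T1.T1Out K)
    {P : Type} [TopologicalSpace P] [T2Space P]
    [SecondCountableTopology P] [MeasurableSpace P] [BorelSpace P] (ν₀ : Measure P)
    [IsFiniteMeasureOnCompacts ν₀]
    {B' B : Set P} (hB : IsCompact B) (hBB : B' ⊆ B)
    {Y : P → G K} (hY : Continuous Y) {wt : P → ℂ} (hwt : Continuous wt)
    {φ : G K → ℂ} (hφ : Continuous φ) (x : G K) :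
    IntegrableOn (fun p => φ (x * Y p) * wt p) B' ν₀ := by
  obtain ⟨-, hlc, ht2, hsc⟩ := ht1.locComp
  have hc : Continuous fun p => φ (x * Y p) * wt p :=
    (hφ.comp (continuous_const.mul hY)).mul hwt
  exact (hc.continuousOn.integrableOn_compact hB).mono_set hBB

end analysis878

end Fermat.Agent.LT.T2.H878

end
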