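import Mathlib
import Fermat.Agent.LT.H556.A0
import Fermat.Agent.LT.T1.Spec
import Fermat.Agent.LT.T2.Spec
import Fermat.Agent.LT.T2.H429.OpsSpec
import Fermat.Agent.LT.T2.H472.LocCont
import Fermat.Agent.LT.T2.H878.LocalAlg
import Fermat.Agent.LT.T2.H878.FubiniMean
import Fermat.Agent.LT.T2.H878.RotMat
import Fermat.Agent.LT.T2.H878.FamComm

/-!
# Row LT, tower T2, sub-leaf T2.07.21 `SubCommConvMean429` (helper878)

OFF-MAIN.  A convolution by a spherical test function commutes with the sphere means (complex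
places) and with the circle means (real places):

`subCommConvMean878 : SubS2Rot429 → SubCartanInf429 → SubCommConvMean429 K`.

Inputs: the auxiliary sub-leaves T2.07.31 `SubS2Rot429` (rotation invariance of `sin β dβ dα`;
used at the complex places only) and T2.07.32 `SubCartanInf429` (Cartan decomposition), and the
proved T2.07.30 (`locCont472`, helper472).  Of the context `Ctx429` only `t1.locComp` and
`t1.unimod` are used; `PairDefinite` is not needed: the commutation is proved pointwise.

Proof (`comm_abstract878`, `comm_fam878`): with `Y_p = k_p a`, `Z_p = k_p a⁻¹`,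
`R(f) M φ (x) = ∫ φ(x h) B(h) dh` and `M R(f) φ (x) = ∫ φ(x h) A(h) dh` with the kernels
`B(h) = ∫ f(h Z_p) dp`, `A(h) = ∫ f(Y_p⁻¹ h) dp` (Fubini, left and right invariance of the Haar
measure, right invariance of `f` and `φ` under the compact group at `w`); `A = B` by Gelfand's
trick (`biInv_star878`): `f(Y_p⁻¹ h) = f(h* Z_p)` for the conjugate transpose `h*` of `h` at `w`,
and `B(h*) = B(h)` because `B` is bi-invariant under the compact group at `w`.
-/

set_option autoImplicit false
set_option linter.unusedSectionVars false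
set_option linter.style.haveILetI false

open IsDedekindDomain NumberField MeasureTheory Set
open scoped Matrix Pointwise

noncomputable section

namespace Fermat.Agent.LT.T2.H878

open Fermat.Agent.LT.H556.A0
open Fermat.Agent.LT.T2
open Fermat.Agent.LT.T2.H472

variable {K : Type} [Field K] [NumberField K]

attribute [local instance] Fermat.Agent.LT.T2.borelG

/-! ## 1. The complex places -/

/-- The box of the Euler angles. -/
def boxS878 : Set (ℝ × ℝ) := Ioc 0 (2 * Real.pi) ×ˢ Ioc 0 Real.pi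

/-- The closed box of the Euler angles. -/
def boxSc878 : Set (ℝ × ℝ) := Icc 0 (2 * Real.pi) ×ˢ Icc 0 Real.pi

/-- The density `sin β`. -/
def wtS878 : ℝ × ℝ → ℂ := fun p => ((Real.sin p.2 : ℝ) : ℂ)

theorem continuous_wtS878 : Continuous wtS878 := by
  unfold wtS878
  fun_prop

theorem measurableSet_boxS878 : MeasurableSet boxS878 :=
  measurableSet_Ioc.prod measurableSet_Ioc

theorem isCompact_boxSc878 : IsCompact boxSc878 := isCompact_Icc.prod isCompact_Icc

theorem boxS_subset878 : boxS878 ⊆ boxSc878 :=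
  prod_mono Ioc_subset_Icc_self Ioc_subset_Icc_self

/-- The iterated interval integrals are an integral over the box. -/
theorem sphere_conv878 (Ψ : ℝ × ℝ → ℂ) (h : IntegrableOn Ψ boxS878 volume) :
    ∫ α in (0 : ℝ)..(2 * Real.pi), ∫ β in (0 : ℝ)..Real.pi, Ψ (α, β) = ∫ p in boxS878, Ψ p := by
  have h2 : (0 : ℝ) ≤ 2 * Real.pi := by positivity
  rw [intervalIntegral.integral_of_le h2]
  simp_rw [intervalIntegral.integral_of_le Real.pi_pos.le]
  rw [boxS878, Measure.volume_eq_prod] at h ⊢
  exact (setIntegral_prod Ψ h).symm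

/-- The parametrisation of a sphere is continuous. -/
theorem continuous_sphere878 {w : InfinitePlace K} {d : ℝ} {Y : ℝ → ℝ → G K}
    (hY : IsSphereAt w d Y) : Continuous fun p : ℝ × ℝ => Y p.1 p.2 := by
  refine locCont472 K w (ℝ × ℝ) (fun p => Y p.1 p.2) (fun p => (hY p.1 p.2).1) ?_
  intro i j
  have h : (fun p : ℝ × ℝ => infComp w (Y p.1 p.2) i j)
      = fun p : ℝ × ℝ => (rotZ p.1 * rotY p.2 * torus d) i j := by
    funext p
    rw [(hY p.1 p.2).2]
  rw [h]
  have hc : Continuous fun p : ℝ × ℝ => rotZ p.1 * rotY p.2 * torus d :=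
    ((continuous_rotZ878.comp continuous_fst).matrix_mul
      (continuous_rotY878.comp continuous_snd)).matrix_mul continuous_const
  exact hc.matrix_elem i j

theorem comp_sphere_zero878 {w : InfinitePlace K} {d : ℝ} {Y : ℝ → ℝ → G K}
    (hY : IsSphereAt w d Y) : infComp w (Y 0 0) = torus d := by
  rw [(hY 0 0).2, rotZ_zero878, rotY_zero878, one_mul, one_mul]

theorem comp_sphere_k878 {w : InfinitePlace K} {d : ℝ} {Y : ℝ → ℝ → G K}
    (hY : IsSphereAt w d Y) (p : ℝ × ℝ) :
    infComp w (Y p.1 p.2 * (Y 0 0)⁻¹) = rotZ p.1 * rotY p.2 := by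
  rw [infComp_mul878, infComp_inv472, comp_sphere_zero878 hY, (hY p.1 p.2).2, mul_assoc,
    Matrix.mul_nonsing_inv _ (IsUnit.mk0 _ (det_torus878 d)), mul_one]

/-- The family of a sphere. -/
def sphereFam878 {w : InfinitePlace K} (hw : w.IsComplex) {d : ℝ} {Y : ℝ → ℝ → G K}
    (hY : IsSphereAt w d Y) : Fam878 w (fun p : ℝ × ℝ => Y p.1 p.2) where
  a := Y 0 0
  a_loc := (hY 0 0).1
  a_herm := by rw [comp_sphere_zero878 hY, torus_herm878]
  k := fun p => Y p.1 p.2 * (Y 0 0)⁻¹
  k_cpt := fun p => by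
    refine ⟨isLocalAtInf_mul878 (hY p.1 p.2).1 (isLocalAtInf_inv472 (hY 0 0).1), ?_,
      fun hr => absurd hr (InfinitePlace.not_isReal_iff_isComplex.2 hw)⟩
    rw [comp_sphere_k878 hY, Matrix.conjTranspose_mul]
    calc rotZ p.1 * rotY p.2 * ((rotY p.2)ᴴ * (rotZ p.1)ᴴ)
        = rotZ p.1 * (rotY p.2 * (rotY p.2)ᴴ) * (rotZ p.1)ᴴ := by simp only [mul_assoc]
      _ = 1 := by rw [rotY_unitary878, mul_one, rotZ_unitary878]
  Y_eq := fun p => by
    show Y p.1 p.2 = Y p.1 p.2 * (Y 0 0)⁻¹ * Y 0 0
    rw [inv_mul_cancel_right]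

theorem sphereFam_Z_comp878 {w : InfinitePlace K} (hw : w.IsComplex) {d : ℝ}
    {Y : ℝ → ℝ → G K} (hY : IsSphereAt w d Y) (p : ℝ × ℝ) :
    infComp w ((sphereFam878 hw hY).Z p) = rotZ p.1 * rotY p.2 * torus (-d) := by
  show infComp w (Y p.1 p.2 * (Y 0 0)⁻¹ * (Y 0 0)⁻¹) = _
  rw [infComp_mul878, comp_sphere_k878 hY, infComp_inv472, comp_sphere_zero878 hY,
    torus_inv878]

/-- The element supported at the complex place `w` with component `m`. -/
def locC878 (w : InfinitePlace K) (hw : w.IsComplex)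
    (m : {m : Matrix (Fin 2) (Fin 2) ℂ // m.det ≠ 0}) : G K :=
  Classical.choose (exists_local878 (K := K) w m.1 m.2
    (fun hr => absurd hr (InfinitePlace.not_isReal_iff_isComplex.2 hw)))

theorem locC_loc878 (w : InfinitePlace K) (hw : w.IsComplex)
    (m : {m : Matrix (Fin 2) (Fin 2) ℂ // m.det ≠ 0}) : IsLocalAtInf w (locC878 w hw m) :=
  (Classical.choose_spec (exists_local878 (K := K) w m.1 m.2
    (fun hr => absurd hr (InfinitePlace.not_isReal_iff_isComplex.2 hw)))).1

theorem locC_comp878 (w : InfinitePlace K) (hw : w.IsComplex)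
    (m : {m : Matrix (Fin 2) (Fin 2) ℂ // m.det ≠ 0}) : infComp w (locC878 w hw m) = m.1 :=
  (Classical.choose_spec (exists_local878 (K := K) w m.1 m.2
    (fun hr => absurd hr (InfinitePlace.not_isReal_iff_isComplex.2 hw)))).2

theorem continuous_locC878 (w : InfinitePlace K) (hw : w.IsComplex) :
    Continuous (locC878 (K := K) w hw) := by
  refine locCont472 K w _ (locC878 w hw) (locC_loc878 w hw) ?_
  intro i j
  have h : (fun m : {m : Matrix (Fin 2) (Fin 2) ℂ // m.det ≠ 0} =>
      infComp w (locC878 (K := K) w hw m) i j) = fun m => m.1 i j := by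
    funext m
    rw [locC_comp878]
  rw [h]
  exact continuous_subtype_val.matrix_elem i j

/-- The function on `GL₂(ℂ)` attached to `g ↦ f(h g)`. -/
def psi878 (w : InfinitePlace K) (hw : w.IsComplex) (f : G K → ℂ) (h : G K) :
    Matrix (Fin 2) (Fin 2) ℂ → ℂ :=
  fun m => if hm : m.det ≠ 0 then f (h * locC878 w hw ⟨m, hm⟩) else 0

theorem psi_eq878 {w : InfinitePlace K} (hw : w.IsComplex) (f : G K → ℂ) (h g : G K)
    (hg : IsLocalAtInf w g) : psi878 w hw f h (infComp w g) = f (h * g) := by
  have hdet : (infComp w g).det ≠ 0 := det_infComp_ne_zero472 w g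
  unfold psi878
  rw [dif_pos hdet]
  congr 2
  exact local_unique878 (locC_loc878 w hw _) hg (locC_comp878 w hw _)

theorem continuousOn_psi878 {w : InfinitePlace K} (hw : w.IsComplex) {f : G K → ℂ}
    (hf : Continuous f) (h : G K) :
    ContinuousOn (psi878 w hw f h) {m | m.det ≠ 0} := by
  rw [continuousOn_iff_continuous_domRestrict]
  have e : ({m : Matrix (Fin 2) (Fin 2) ℂ | m.det ≠ 0}.domRestrict (psi878 w hw f h))
      = fun m => f (h * locC878 w hw m) := by
    funext m
    show psi878 w hw f h m.1 = _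
    unfold psi878
    exact dif_pos (show (m : Matrix (Fin 2) (Fin 2) ℂ).det ≠ 0 from m.2)
  rw [e]
  exact hf.comp (continuous_const.mul (continuous_locC878 w hw))

theorem psi_inv878 {w : InfinitePlace K} (hw : w.IsComplex) {f : G K → ℂ}
    (hfR : ∀ k : G K, IsArchCompact w k → ∀ g, f (g * k) = f g) (h : G K)
    (m k : Matrix (Fin 2) (Fin 2) ℂ) (hk : k * kᴴ = 1) :
    psi878 w hw f h (m * k) = psi878 w hw f h m := by
  have hkdet : k.det ≠ 0 := by
    have h1 := congrArg Matrix.det hk
    rw [Matrix.det_mul, Matrix.det_one] at h1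
    exact left_ne_zero_of_mul_eq_one h1
  by_cases hm : m.det ≠ 0
  · obtain ⟨Kk, hKk, hKkc⟩ := exists_archCompact878 (K := K) w k hk
      (fun hr => absurd hr (InfinitePlace.not_isReal_iff_isComplex.2 hw))
    have e1 : m = infComp w (locC878 (K := K) w hw ⟨m, hm⟩) :=
      (locC_comp878 w hw ⟨m, hm⟩).symm
    have e2 : m * k = infComp w (locC878 (K := K) w hw ⟨m, hm⟩ * Kk) := by
      rw [infComp_mul878, hKkc, ← e1]
    rw [e2, psi_eq878 hw f h _ (isLocalAtInf_mul878 (locC_loc878 w hw _) hKk.1), ← mul_assoc,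
      hfR Kk hKk]
    conv_rhs => rw [e1]
    rw [psi_eq878 hw f h _ (locC_loc878 w hw _)]
  · have hmk : ¬ (m * k).det ≠ 0 := by
      rw [Matrix.det_mul]
      intro h1
      exact hm (left_ne_zero_of_mul h1)
    unfold psi878
    rw [dif_neg hm, dif_neg hmk]

/-- **The invariance `RI` at a complex place**, from the rotation invariance of the measure
`sin β dβ dα`. -/
theorem sphere_RI878 (hrot : H429.SubS2Rot429) {w : InfinitePlace K} (hw : w.IsComplex)
    {d : ℝ} {Y : ℝ → ℝ → G K} (hY : IsSphereAt w d Y) {f : G K → ℂ} (hf : Continuous f)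
    (hfR : ∀ k : G K, IsArchCompact w k → ∀ g, f (g * k) = f g) (h k' : G K)
    (hk' : IsArchCompact w k') :
    ∫ p in boxS878, f (h * k' * (sphereFam878 hw hY).Z p) * wtS878 p
      = ∫ p in boxS878, f (h * (sphereFam878 hw hY).Z p) * wtS878 p := by
  have hZcont : Continuous (sphereFam878 hw hY).Z := by
    have : (sphereFam878 hw hY).Z = fun p => Y p.1 p.2 * (Y 0 0)⁻¹ * (Y 0 0)⁻¹ := rfl
    rw [this]
    exact ((continuous_sphere878 hY).mul continuous_const).mul continuous_const
  have key := hrot (psi878 w hw f h) (continuousOn_psi878 hw hf h) (psi_inv878 hw hfR h)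
    (infComp w k') hk'.2.1 (-d)
  have e1 : ∀ α β : ℝ, psi878 w hw f h (infComp w k' * (rotZ α * rotY β * torus (-d)))
      = f (h * k' * (sphereFam878 hw hY).Z (α, β)) := by
    intro α β
    rw [← sphereFam_Z_comp878 hw hY (α, β), ← infComp_mul878,
      psi_eq878 hw f h _ (isLocalAtInf_mul878 hk'.1 ((sphereFam878 hw hY).Z_loc _)), mul_assoc]
  have e2 : ∀ α β : ℝ, psi878 w hw f h (rotZ α * rotY β * torus (-d))
      = f (h * (sphereFam878 hw hY).Z (α, β)) := by
    intro α β
    rw [← sphereFam_Z_comp878 hw hY (α, β),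
      psi_eq878 hw f h _ ((sphereFam878 hw hY).Z_loc _)]
  simp_rw [e1, e2] at key
  have hc1 : Continuous fun p => f (h * k' * (sphereFam878 hw hY).Z p) * wtS878 p :=
    (hf.comp (continuous_const.mul hZcont)).mul continuous_wtS878
  have hc2 : Continuous fun p => f (h * (sphereFam878 hw hY).Z p) * wtS878 p :=
    (hf.comp (continuous_const.mul hZcont)).mul continuous_wtS878
  rw [← sphere_conv878 _ ((hc1.continuousOn.integrableOn_compact isCompact_boxSc878).mono_set
      boxS_subset878),
    ← sphere_conv878 _ ((hc2.continuousOn.integrableOn_compact isCompact_boxSc878).mono_set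
      boxS_subset878)]
  exact key

/-- **T2.07.21, complex places.** -/
theorem comm_sphere878 (hrot : H429.SubS2Rot429) (hC : H429.SubCartanInf429)
    {𝔫 : Ideal (𝓞 K)} (hctx : H429.Ctx429 K 𝔫) (F : Frame K) {f : G K → ℂ}
    (hf : IsSphTestFn 𝔫 f) {w : InfinitePlace K} (hw : w.IsComplex) {d : ℝ}
    {Y : ℝ → ℝ → G K} (hY : IsSphereAt w d Y) :
    H429.Comm429 𝔫 (conv F f) (sphereMean Y) := by
  intro φ hφ
  funext x
  have hYc := continuous_sphere878 hY
  have main := comm_fam878 hC hctx.t1 F (volume : Measure (ℝ × ℝ)) measurableSet_boxS878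
    isCompact_boxSc878 boxS_subset878 hYc (sphereFam878 hw hY) continuous_wtS878
    hf.test.cont hf.test.cpt hφ.cont (hf.test.arch_right w) (hf.test.arch_left w)
    (hφ.arch_compact w) (sphere_RI878 hrot hw hY hf.test.cont (hf.test.arch_right w)) x
  have hL : conv F f (sphereMean Y φ) x
      = ∫ h, (∫ p in boxS878, φ (x * h * Y p.1 p.2) * wtS878 p) * f h ∂F.μ := by
    show ∫ h, sphereMean Y φ (x * h) * f h ∂F.μ = _
    refine integral_congr_ae (Filter.Eventually.of_forall fun h => ?_)
    show sphereMean Y φ (x * h) * f h = _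
    congr 1
    exact sphere_conv878 (fun p => φ (x * h * Y p.1 p.2) * wtS878 p)
      (fam_mean_integrable878 hctx.t1 volume isCompact_boxSc878 boxS_subset878 hYc
        continuous_wtS878 hφ.cont (x * h))
  have hR : sphereMean Y (conv F f φ) x
      = ∫ p in boxS878, (∫ h, φ (x * Y p.1 p.2 * h) * f h ∂F.μ) * wtS878 p :=
    sphere_conv878 (fun p => (∫ h, φ (x * Y p.1 p.2 * h) * f h ∂F.μ) * wtS878 p)
      (fam_mean_conv_integrable878 hctx.t1 F volume measurableSet_boxS878 isCompact_boxSc878
        boxS_subset878 hYc continuous_wtS878 hf.test.cont hf.test.cpt hφ.cont x)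
  rw [hL, hR]
  exact main

/-! ## 2. The real places -/

/-- The parametrisation of a circle is continuous. -/
theorem continuous_circle878 {w : InfinitePlace K} {t : ℝ} {Y : ℝ → G K}
    (hY : IsCircleAt w t Y) : Continuous Y := by
  refine locCont472 K w ℝ Y (fun θ => (hY θ).1) ?_
  intro i j
  have h : (fun θ : ℝ => infComp w (Y θ) i j) = fun θ : ℝ => (rotY θ * torus t) i j := by
    funext θ
    rw [(hY θ).2]
  rw [h]
  have hc : Continuous fun θ : ℝ => rotY θ * torus t :=
    continuous_rotY878.matrix_mul continuous_const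
  exact hc.matrix_elem i j

theorem comp_circle_zero878 {w : InfinitePlace K} {t : ℝ} {Y : ℝ → G K}
    (hY : IsCircleAt w t Y) : infComp w (Y 0) = torus t := by
  rw [(hY 0).2, rotY_zero878, one_mul]

theorem comp_circle_k878 {w : InfinitePlace K} {t : ℝ} {Y : ℝ → G K}
    (hY : IsCircleAt w t Y) (θ : ℝ) :
    infComp w (Y θ * (Y 0)⁻¹) = rotY θ := by
  rw [infComp_mul878, infComp_inv472, comp_circle_zero878 hY, (hY θ).2, mul_assoc,
    Matrix.mul_nonsing_inv _ (IsUnit.mk0 _ (det_torus878 t)), mul_one]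

/-- The family of a circle. -/
def circleFam878 {w : InfinitePlace K} {t : ℝ} {Y : ℝ → G K}
    (hY : IsCircleAt w t Y) : Fam878 w Y where
  a := Y 0
  a_loc := (hY 0).1
  a_herm := by rw [comp_circle_zero878 hY, torus_herm878]
  k := fun θ => Y θ * (Y 0)⁻¹
  k_cpt := fun θ => by
    refine ⟨isLocalAtInf_mul878 (hY θ).1 (isLocalAtInf_inv472 (hY 0).1), ?_, fun _ => ?_⟩
    · rw [comp_circle_k878 hY]
      exact rotY_unitary878 θ
    · rw [comp_circle_k878 hY]
      exact rotY_det878 θ
  Y_eq := fun θ => by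
    show Y θ = Y θ * (Y 0)⁻¹ * Y 0
    rw [inv_mul_cancel_right]

theorem circleFam_Z_comp878 {w : InfinitePlace K} {t : ℝ} {Y : ℝ → G K}
    (hY : IsCircleAt w t Y) (θ : ℝ) :
    infComp w ((circleFam878 hY).Z θ) = rotY θ * torus (-t) := by
  show infComp w (Y θ * (Y 0)⁻¹ * (Y 0)⁻¹) = _
  rw [infComp_mul878, comp_circle_k878 hY, infComp_inv472, comp_circle_zero878 hY,
    torus_inv878]

/-- **The invariance `RI` at a real place**: the rotations act by translations of the angle. -/
theorem circle_RI878 {w : InfinitePlace K} (hw : w.IsReal)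
    {t : ℝ} {Y : ℝ → G K} (hY : IsCircleAt w t Y) {f : G K → ℂ}
    (hfR : ∀ k : G K, IsArchCompact w k → ∀ g, f (g * k) = f g) (h k' : G K)
    (hk' : IsArchCompact w k') :
    ∫ θ in Ioc 0 (2 * Real.pi), f (h * k' * (circleFam878 hY).Z θ) * (1 : ℂ)
      = ∫ θ in Ioc 0 (2 * Real.pi), f (h * (circleFam878 hY).Z θ) * (1 : ℂ) := by
  have h2 : (0 : ℝ) ≤ 2 * Real.pi := by positivity
  obtain ⟨θ₀, hθ₀⟩ := so2_eq_rotY878 (infComp w k') hk'.2.1
    (fun i j => infComp_real878 hw k' i j) (hk'.2.2 hw)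
  -- the rotation translates the angle
  have e1 : ∀ θ : ℝ, k' * (circleFam878 hY).Z θ = (circleFam878 hY).Z (θ₀ + θ) := by
    intro θ
    refine local_unique878 (isLocalAtInf_mul878 hk'.1 ((circleFam878 hY).Z_loc θ))
      ((circleFam878 hY).Z_loc _) ?_
    rw [infComp_mul878, circleFam_Z_comp878, circleFam_Z_comp878, hθ₀, ← mul_assoc,
      rotY_add878]
  -- periodicity
  have e2 : ∀ θ : ℝ, (circleFam878 hY).Z (θ + 2 * Real.pi)
      = (circleFam878 hY).Z θ * (circleFam878 hY).k (2 * Real.pi) := by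
    intro θ
    refine local_unique878 ((circleFam878 hY).Z_loc _)
      (isLocalAtInf_mul878 ((circleFam878 hY).Z_loc θ) ((circleFam878 hY).k_cpt _).1) ?_
    have hk : infComp w ((circleFam878 hY).k (2 * Real.pi)) = rotY (2 * Real.pi) :=
      comp_circle_k878 hY _
    rw [infComp_mul878, circleFam_Z_comp878, circleFam_Z_comp878, hk, rotY_add_two_pi878,
      rotY_two_pi878]
    simp
  have hper : Function.Periodic (fun θ => f (h * (circleFam878 hY).Z θ)) (2 * Real.pi) := by
    intro θ
    show f (h * (circleFam878 hY).Z (θ + 2 * Real.pi)) = f (h * (circleFam878 hY).Z θ)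
    rw [e2, ← mul_assoc, hfR _ ((circleFam878 hY).k_cpt _)]
  simp only [mul_one]
  rw [← intervalIntegral.integral_of_le h2, ← intervalIntegral.integral_of_le h2]
  have e3 : ∀ θ : ℝ, f (h * k' * (circleFam878 hY).Z θ)
      = (fun θ => f (h * (circleFam878 hY).Z θ)) (θ₀ + θ) := by
    intro θ
    show f (h * k' * (circleFam878 hY).Z θ) = f (h * (circleFam878 hY).Z (θ₀ + θ))
    rw [mul_assoc, e1]
  simp_rw [e3]
  rw [intervalIntegral.integral_comp_add_left (fun θ => f (h * (circleFam878 hY).Z θ)) θ₀,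
    add_zero]
  have := hper.intervalIntegral_add_eq θ₀ 0
  rw [zero_add] at this
  exact this

/-- **T2.07.21, real places.** -/
theorem comm_circle878 (hC : H429.SubCartanInf429)
    {𝔫 : Ideal (𝓞 K)} (hctx : H429.Ctx429 K 𝔫) (F : Frame K) {f : G K → ℂ}
    (hf : IsSphTestFn 𝔫 f) {w : InfinitePlace K} (hw : w.IsReal) {t : ℝ}
    {Y : ℝ → G K} (hY : IsCircleAt w t Y) :
    H429.Comm429 𝔫 (conv F f) (circleMean Y) := by
  intro φ hφ
  funext x
  have h2 : (0 : ℝ) ≤ 2 * Real.pi := by positivity
  have hYc := continuous_circle878 hY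
  have main := comm_fam878 hC hctx.t1 F (volume : Measure ℝ)
    (measurableSet_Ioc : MeasurableSet (Ioc (0 : ℝ) (2 * Real.pi)))
    (isCompact_Icc : IsCompact (Icc (0 : ℝ) (2 * Real.pi))) Ioc_subset_Icc_self hYc
    (circleFam878 hY) (continuous_const : Continuous fun _ : ℝ => (1 : ℂ))
    hf.test.cont hf.test.cpt hφ.cont (hf.test.arch_right w) (hf.test.arch_left w)
    (hφ.arch_compact w) (circle_RI878 hw hY (hf.test.arch_right w)) x
  simp only [mul_one] at main
  have hL : conv F f (circleMean Y φ) x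
      = ∫ h, (∫ θ in Ioc 0 (2 * Real.pi), φ (x * h * Y θ)) * f h ∂F.μ := by
    show ∫ h, circleMean Y φ (x * h) * f h ∂F.μ = _
    refine integral_congr_ae (Filter.Eventually.of_forall fun h => ?_)
    show circleMean Y φ (x * h) * f h = _
    congr 1
    exact intervalIntegral.integral_of_le h2
  have hR : circleMean Y (conv F f φ) x
      = ∫ θ in Ioc 0 (2 * Real.pi), (∫ h, φ (x * Y θ * h) * f h ∂F.μ) :=
    intervalIntegral.integral_of_le h2
  rw [hL, hR]
  exact main

/-! ## 3. The leaf -/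

/-- **T2.07.21** `SubCommConvMean429`, from the auxiliary sub-leaves T2.07.31 (rotation
invariance of `sin β dβ dα`) and T2.07.32 (Cartan decomposition at the infinite places). -/
theorem subCommConvMean878 (hrot : H429.SubS2Rot429) (hC : H429.SubCartanInf429) :
    H429.SubCommConvMean429 K := by
  intro 𝔫 hctx F f hf
  exact ⟨fun w hw d _ Y hY => comm_sphere878 hrot hC hctx F hf hw hY,
    fun w hw t _ Y hY => comm_circle878 hC hctx F hf hw hY⟩

end Fermat.Agent.LT.T2.H878

end
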